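import Mathlib
import Fermat.Agent.Lib.RR.Hurwitz.Fibres
import Fermat.Agent.Lib.BadRed.ValApprox

set_option autoImplicit false
set_option linter.unusedSectionVars false
set_option linter.style.haveILetI false

/-!
# Cluster G (S36), seat G-INV, part 1: the norm of a finite group of automorphisms

`G` a finite subgroup of `Aut_K(F)`, `F / K` a function field (`IsRRField`).
* `ikNorm G x = ∏_{σ ∈ G} σ x`, fixed by `G`, with `ord_w (ikNorm G x) = ∑_σ ord_{σ⁻¹ w} x`;
* `ik_exists_sep`: weak approximation, a function with a zero at `w'` and which is a unit at the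
  finitely many places of `T` (`w' ∉ T`).
-/

noncomputable section

open AlgebraicCurve IntermediateField

namespace Fermat.Agent.S36Cover

open Fermat.Agent.RR

variable {K F : Type*} [Field K] [Field F] [Algebra K F]

/-- `ord` of a finite product of nonzero functions. -/
theorem ik_ord_prod (w : Place K F) {ι : Type*} (s : Finset ι) (f : ι → F)
    (hf : ∀ i ∈ s, f i ≠ 0) : w.ord (∏ i ∈ s, f i) = ∑ i ∈ s, w.ord (f i) := by
  classical
  induction s using Finset.induction_on with
  | empty => simp
  | insert a s ha ih =>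
    rw [Finset.prod_insert ha, Finset.sum_insert ha,
      w.ord_mul (hf a (Finset.mem_insert_self a s))
        (Finset.prod_ne_zero_iff.mpr fun i hi => hf i (Finset.mem_insert_of_mem hi)),
      ih fun i hi => hf i (Finset.mem_insert_of_mem hi)]

/-- `ord_w (σ x) = ord_{σ⁻¹ w} x`. -/
theorem ik_ord_apply (σ : F ≃ₐ[K] F) (w : Place K F) (x : F) :
    w.ord (σ x) = (σ⁻¹ • w).ord x := by
  have h := Place.ord_smul σ (σ⁻¹ • w) x
  rwa [smul_inv_smul] at h

variable (G : Subgroup (F ≃ₐ[K] F)) [Fintype G]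

/-- the norm `∏_{σ ∈ G} σ x`. -/
def ikNorm (x : F) : F := ∏ σ : G, (σ : F ≃ₐ[K] F) x

theorem ikNorm_ne_zero {x : F} (hx : x ≠ 0) : ikNorm G x ≠ 0 := by
  unfold ikNorm
  exact Finset.prod_ne_zero_iff.mpr fun σ _ => by simpa using hx

theorem ikNorm_fixed (τ : G) (x : F) : (τ : F ≃ₐ[K] F) (ikNorm G x) = ikNorm G x := by
  unfold ikNorm
  rw [map_prod]
  exact Fintype.prod_equiv (Equiv.mulLeft τ) _ _ fun σ => rfl

theorem ik_ord_ikNorm (w : Place K F) {x : F} (hx : x ≠ 0) :
    w.ord (ikNorm G x) = ∑ σ : G, ((σ : F ≃ₐ[K] F)⁻¹ • w).ord x := by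
  unfold ikNorm
  rw [ik_ord_prod w Finset.univ _ fun σ _ => by simpa using hx]
  exact Finset.sum_congr rfl fun σ _ => ik_ord_apply _ w x

/-! ### weak approximation -/

/-- distinct places have incomparable valuation rings. -/
theorem ik_not_le_of_ne {v w : Place K F} (h : v ≠ w) :
    ¬ v.toValuationSubring ≤ w.toValuationSubring := fun hle =>
  h (Place.ext (ValuationSubring.eq_of_le_of_ne_top _ hle w.ne_top'))

theorem ik_mem_nonunits_iff (w : Place K F) {x : F} (hx : x ≠ 0) :
    x ∈ w.toValuationSubring.nonunits ↔ 0 < w.ord x := by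
  rw [ValuationSubring.mem_nonunits_iff]
  constructor
  · intro h
    have hmem : x ∈ w.toValuationSubring :=
      (w.toValuationSubring.valuation_le_one_iff x).mp (le_of_lt h)
    have h0 : (⟨x, hmem⟩ : w.toValuationSubring) ≠ 0 := fun h0 => hx (congrArg Subtype.val h0)
    refine (Fermat.Agent.S24Res.mem_maximalIdeal_iff_ord_pos w h0).mp ?_
    rw [IsLocalRing.mem_maximalIdeal, mem_nonunits_iff]
    intro hu
    have h1 : w.toValuationSubring.valuation x = 1 :=
      (w.toValuationSubring.valuation_eq_one_iff ⟨x, hmem⟩).mp hu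
    rw [h1] at h
    exact lt_irrefl _ h
  · intro h
    have hmem : x ∈ w.toValuationSubring := Fermat.Agent.S24Res.mem_of_ord_nonneg w h.le
    have h0 : (⟨x, hmem⟩ : w.toValuationSubring) ≠ 0 := fun h0 => hx (congrArg Subtype.val h0)
    have h1 := (Fermat.Agent.S24Res.mem_maximalIdeal_iff_ord_pos w h0).mpr h
    rw [IsLocalRing.mem_maximalIdeal, mem_nonunits_iff] at h1
    refine lt_of_le_of_ne ((w.toValuationSubring.valuation_le_one_iff x).mpr hmem) fun h2 => h1 ?_
    exact (w.toValuationSubring.valuation_eq_one_iff ⟨x, hmem⟩).mpr h2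

end Fermat.Agent.S36Cover
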