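import Mathlib
import Fermat.Agent.S36.Cover.InvNorm
import Fermat.Agent.Lib.GoodRed.Small.GenusZero

set_option autoImplicit false
set_option linter.unusedSectionVars false
set_option linter.style.haveILetI false

/-!
# Cluster G (S36), seat G-INV, part 2: weak approximation and fibres of `t`

* `ik_exists_sep`: a function with a zero at `w'` which is a unit at the finitely many places of
  `T` (`w' ∉ T`);
* `ik_ord_pos_iff_of_mem_adjoin`: for `u ∈ K(s)` and two places `w, w'` in the fibre `s = 0`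
  (`0 < ord s`), `0 < ord_w u ↔ 0 < ord_w' u`.
-/

noncomputable section

open AlgebraicCurve IntermediateField Polynomial

namespace Fermat.Agent.S36Cover

open Fermat.Agent.RR Fermat.Agent.GoodRedSmall

variable {K F : Type*} [Field K] [Field F] [Algebra K F]

/-- **weak approximation**: a function with a zero at `w'`, unit at the places of `T`. -/
theorem ik_exists_sep [Infinite K] (T : Finset (Place K F)) (w' : Place K F) (hw' : w' ∉ T) :
    ∃ x : F, x ≠ 0 ∧ 0 < w'.ord x ∧ ∀ w ∈ T, w.ord x = 0 := by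
  classical
  rcases T.eq_empty_or_nonempty with hT | ⟨w₀, hw₀⟩
  · obtain ⟨t, ht⟩ := exists_uniformizer w'
    refine ⟨t, ?_, by omega, fun w hw => by simp [hT] at hw⟩
    rintro rfl
    simp at ht
  let ι := {v : Place K F // v ∈ insert w' T}
  let O : ι → ValuationSubring F := fun i => i.1.toValuationSubring
  let a : ℕ ↪ K := Infinite.natEmbedding K
  let c : ℕ → F := fun m => algebraMap K F (a m)
  have hinc : ∀ i j : ι, i ≠ j → ¬ O i ≤ O j := fun i j hij =>
    ik_not_le_of_ne fun h => hij (Subtype.ext h)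
  have hc : ∀ (i : ι) (m : ℕ), c m ∈ O i := fun i m => i.1.algebraMap_mem' (a m)
  have hcu : ∀ (i : ι) (m m' : ℕ), m ≠ m' → c m - c m' ∉ (O i).nonunits := by
    intro i m m' hmm hmem
    have hne : a m - a m' ≠ 0 := sub_ne_zero.mpr fun h => hmm (a.injective h)
    have hne' : c m - c m' ≠ 0 := by
      show algebraMap K F (a m) - algebraMap K F (a m') ≠ 0
      rw [← map_sub]
      exact (map_ne_zero_iff _ (algebraMap K F).injective).mpr hne
    have h1 := (ik_mem_nonunits_iff i.1 hne').mp hmem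
    have h2 : i.1.ord (c m - c m') = 0 := by
      show i.1.ord (algebraMap K F (a m) - algebraMap K F (a m')) = 0
      rw [← map_sub]
      exact ord_const i.1 _
    omega
  let i₀ : ι := ⟨w', Finset.mem_insert_self w' T⟩
  obtain ⟨E, hE1, hE2, hE3⟩ := Fermat.Agent.BadRed.exists_idempotent_like O c hinc hc hcu i₀
  have hEw : ∀ w ∈ T, E ∈ w.toValuationSubring.nonunits := by
    intro w hw
    refine hE3 ⟨w, Finset.mem_insert_of_mem hw⟩ ?_
    intro h
    have hww : w = w' := congrArg Subtype.val h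
    exact hw' (hww ▸ hw)
  have hE1' : E ≠ 1 := by
    rintro rfl
    have := hEw w₀ hw₀
    rw [ValuationSubring.mem_nonunits_iff, map_one] at this
    exact lt_irrefl _ this
  have hx0 : (1 : F) - E ≠ 0 := sub_ne_zero.mpr (Ne.symm hE1')
  refine ⟨1 - E, hx0, ?_, fun w hw => ?_⟩
  · have h1 : 0 < w'.ord (E - 1) := (ik_mem_nonunits_iff w' (sub_ne_zero.mpr hE1')).mp hE2
    rw [show (1 : F) - E = -(E - 1) by ring, ord_neg']
    exact h1
  · rcases eq_or_ne E 0 with rfl | hE0
    · simp
    have h1 : 0 < w.ord E := (ik_mem_nonunits_iff w hE0).mp (hEw w hw)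
    refine ord_eq_zero_of_sub_pos w (c := 1) one_ne_zero ?_
    rw [map_one, show (1 : F) - E - 1 = -E by ring, ord_neg']
    exact h1

/-! ### the fibre `s = 0` and the elements of `K(s)` -/

/-- polynomials in an integral element are integral. -/
theorem ik_aeval_mem (w : Place K F) {s : F} (hs : s ∈ w.toValuationSubring) (p : K[X]) :
    aeval s p ∈ w.toValuationSubring := by
  induction p using Polynomial.induction_on' with
  | add p q hp hq =>
    rw [map_add]
    exact add_mem hp hq
  | monomial n a =>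
    rw [aeval_monomial]
    exact mul_mem (w.algebraMap_mem' a) (pow_mem hs n)

/-- a polynomial in `s` with nonzero constant coefficient does not vanish at `s`, if `s` has a
zero somewhere. -/
theorem ik_aeval_ne_zero (w : Place K F) {s : F} (hs : 0 < w.ord s) (p : K[X])
    (hp : p.coeff 0 ≠ 0) : aeval s p ≠ 0 := by
  have hs0 : s ≠ 0 := by
    rintro rfl
    simp at hs
  obtain ⟨q, hq⟩ : ∃ q : K[X], p = C (p.coeff 0) + X * q := by
    refine ⟨p.divX, ?_⟩
    conv_lhs => rw [← Polynomial.divX_mul_X_add p]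
    ring
  have h1 : aeval s p = algebraMap K F (p.coeff 0) + s * aeval s q := by
    conv_lhs => rw [hq]
    simp
  intro h0
  rw [h1] at h0
  have hc : algebraMap K F (p.coeff 0) = -(s * aeval s q) := eq_neg_of_add_eq_zero_left h0
  have hc0 : algebraMap K F (p.coeff 0) ≠ 0 :=
    (map_ne_zero_iff _ (algebraMap K F).injective).mpr hp
  have hq0 : aeval s q ≠ 0 := by
    intro hq0
    rw [hq0, mul_zero, neg_zero] at hc
    exact hc0 hc
  have h2 : w.ord (algebraMap K F (p.coeff 0)) = 0 := ord_const w _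
  rw [hc, ord_neg', w.ord_mul hs0 hq0] at h2
  have h3 : 0 ≤ w.ord (aeval s q) :=
    Fermat.Agent.S24Res.ord_nonneg_of_mem w
      (ik_aeval_mem w (Fermat.Agent.S24Res.mem_of_ord_nonneg w hs.le) q)
  omega

/-- a polynomial in `s` with nonzero constant coefficient is a unit at a zero of `s`. -/
theorem ik_ord_aeval_eq_zero (w : Place K F) {s : F} (hs : 0 < w.ord s) (p : K[X])
    (hp : p.coeff 0 ≠ 0) : w.ord (aeval s p) = 0 := by
  have hs0 : s ≠ 0 := by
    rintro rfl
    simp at hs
  obtain ⟨q, hq⟩ : ∃ q : K[X], p = C (p.coeff 0) + X * q := by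
    refine ⟨p.divX, ?_⟩
    conv_lhs => rw [← Polynomial.divX_mul_X_add p]
    ring
  have h1 : aeval s p = algebraMap K F (p.coeff 0) + s * aeval s q := by
    conv_lhs => rw [hq]
    simp
  rcases eq_or_ne (aeval s q) 0 with h0 | h0
  · rw [h1, h0, mul_zero, add_zero]
    exact ord_const w _
  · refine ord_eq_zero_of_sub_pos w (c := p.coeff 0) hp ?_
    rw [h1, add_sub_cancel_left, w.ord_mul hs0 h0]
    have h2 : 0 ≤ w.ord (aeval s q) :=
      Fermat.Agent.S24Res.ord_nonneg_of_mem w
        (ik_aeval_mem w (Fermat.Agent.S24Res.mem_of_ord_nonneg w hs.le) q)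
    omega

/-- the order of `aeval s p` at a zero of `s` is `m * ord s`, `m` the multiplicity of `0`. -/
theorem ik_ord_aeval (w : Place K F) {s : F} (hs : 0 < w.ord s) {p : K[X]} (hp : p ≠ 0) :
    aeval s p ≠ 0 ∧ w.ord (aeval s p) = (p.rootMultiplicity 0 : ℤ) * w.ord s := by
  have hs0 : s ≠ 0 := by
    rintro rfl
    simp at hs
  obtain ⟨q, hq1, hq2⟩ := Polynomial.exists_eq_pow_rootMultiplicity_mul_and_not_dvd p hp 0
  have hq0 : q.coeff 0 ≠ 0 := by
    intro h0
    apply hq2
    rw [C_0, sub_zero]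
    exact Polynomial.X_dvd_iff.mpr h0
  have h1 : aeval s p = s ^ (p.rootMultiplicity 0) * aeval s q := by
    conv_lhs => rw [hq1]
    simp
  have h2 := ik_ord_aeval_eq_zero w hs q hq0
  have h3 : aeval s q ≠ 0 := ik_aeval_ne_zero w hs q hq0
  refine ⟨?_, ?_⟩
  · rw [h1]
    exact mul_ne_zero (pow_ne_zero _ hs0) h3
  · rw [h1, w.ord_mul (pow_ne_zero _ hs0) h3, h2, add_zero, ord_pow']

/-- **the sign of the order of an element of `K(s)` is constant on the fibre `s = 0`.** -/
theorem ik_ord_eq_mul_of_mem_adjoin {s : F} {u : F} (hu : u ∈ K⟮s⟯) (hu0 : u ≠ 0) :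
    ∃ m : ℤ, ∀ w : Place K F, 0 < w.ord s → w.ord u = m * w.ord s := by
  obtain ⟨r, t, rfl⟩ := (IntermediateField.mem_adjoin_simple_iff K u).mp hu
  have hr : aeval s r ≠ 0 := fun h => hu0 (by rw [h, zero_div])
  have ht : aeval s t ≠ 0 := fun h => hu0 (by rw [h, div_zero])
  have hr0 : r ≠ 0 := fun h => hr (by rw [h, map_zero])
  have ht0 : t ≠ 0 := fun h => ht (by rw [h, map_zero])
  refine ⟨(r.rootMultiplicity 0 : ℤ) - (t.rootMultiplicity 0 : ℤ), fun w hw => ?_⟩
  rw [div_eq_mul_inv, w.ord_mul hr (inv_ne_zero ht), w.ord_inv, (ik_ord_aeval w hw hr0).2,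
    (ik_ord_aeval w hw ht0).2]
  ring

end Fermat.Agent.S36Cover
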