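import Mathlib
import Fermat.Agent.S36.Cover.InvSep

set_option autoImplicit false
set_option linter.unusedSectionVars false
set_option linter.style.haveILetI false

/-!
# Cluster G (S36), seat G-INV, part 3: the fibres of the quotient map are orbits

`G` a finite subgroup of `Aut_K(F)` with fixed field `K(x)`.  On the pole fibre of `x`:
* `ik_transitive`: `G` is transitive;
* `ik_card_stabilizer`: the stabiliser of `w` has order `- ord_w x` (the ramification index);
* `ik_sum_single_eq_poleDiv`: `∑_σ (σ • w) = (x)_∞`.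
-/

noncomputable section

open AlgebraicCurve IntermediateField Polynomial

namespace Fermat.Agent.S36Cover

open Fermat.Agent.RR Fermat.Agent.GoodRedSmall Fermat.Agent.RRHur

variable {K F : Type*} [Field K] [Field F] [Algebra K F]

/-- pole version of `ik_ord_eq_mul_of_mem_adjoin`. -/
theorem ik_ord_eq_mul_of_mem_adjoin_pole {x u : F} (hu : u ∈ K⟮x⟯) (hu0 : u ≠ 0) :
    ∃ m : ℤ, ∀ w : Place K F, w.ord x < 0 → w.ord u = m * w.ord x := by
  have hle : K⟮x⟯ ≤ K⟮x⁻¹⟯ := by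
    rw [IntermediateField.adjoin_simple_le_iff]
    have h1 : x⁻¹ ∈ K⟮x⁻¹⟯ := IntermediateField.mem_adjoin_simple_self K _
    simpa using K⟮x⁻¹⟯.inv_mem h1
  obtain ⟨m, hm⟩ := ik_ord_eq_mul_of_mem_adjoin (hle hu) hu0
  refine ⟨-m, fun w hw => ?_⟩
  have h1 := hm w (by rw [w.ord_inv]; omega)
  rw [h1, w.ord_inv]
  ring

variable (G : Subgroup (F ≃ₐ[K] F)) [Fintype G]

theorem ik_ord_smul_of_fixed {x : F} (hGx : ∀ σ ∈ G, σ x = x) (σ : G) (w : Place K F) :
    ((σ : F ≃ₐ[K] F) • w).ord x = w.ord x := by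
  have h := Place.ord_smul (σ : F ≃ₐ[K] F) w x
  rwa [hGx σ σ.2] at h

theorem ik_ikNorm_mem {x : F} (hfix : ∀ y : F, (∀ σ ∈ G, σ y = y) → y ∈ K⟮x⟯) (y : F) :
    ikNorm G y ∈ K⟮x⟯ :=
  hfix _ fun σ hσ => ikNorm_fixed G ⟨σ, hσ⟩ y

/-- **transitivity** of `G` on the pole fibre of `x`. -/
theorem ik_transitive [Infinite K] {x : F}
    (hfix : ∀ y : F, (∀ σ ∈ G, σ y = y) → y ∈ K⟮x⟯) {w w' : Place K F}
    (hw : w.ord x < 0) (hw' : w'.ord x < 0) : ∃ σ : G, (σ : F ≃ₐ[K] F) • w = w' := by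
  classical
  by_contra hcon
  have hcon : ∀ σ : G, (σ : F ≃ₐ[K] F) • w ≠ w' := fun σ h => hcon ⟨σ, h⟩
  set T : Finset (Place K F) :=
    Finset.univ.image (fun σ : G => (σ : F ≃ₐ[K] F) • w) ∪
      (Finset.univ.image (fun σ : G => (σ : F ≃ₐ[K] F) • w')).erase w' with hT
  have hw'T : w' ∉ T := by
    rw [hT, Finset.mem_union, not_or]
    refine ⟨?_, Finset.notMem_erase _ _⟩
    rw [Finset.mem_image]
    rintro ⟨σ, -, h⟩
    exact hcon σ h
  obtain ⟨y, hy0, hy1, hy2⟩ := ik_exists_sep T w' hw'T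
  have hN0 : ikNorm G y ≠ 0 := ikNorm_ne_zero G hy0
  obtain ⟨m, hm⟩ := ik_ord_eq_mul_of_mem_adjoin_pole (ik_ikNorm_mem G hfix y) hN0
  -- the norm is a unit at `w`
  have h1 : w.ord (ikNorm G y) = 0 := by
    rw [ik_ord_ikNorm G w hy0]
    refine Finset.sum_eq_zero fun σ _ => hy2 _ ?_
    rw [hT, Finset.mem_union]
    left
    rw [Finset.mem_image]
    exact ⟨σ⁻¹, Finset.mem_univ _, rfl⟩
  -- and has a zero at `w'`
  have h2 : 0 < w'.ord (ikNorm G y) := by
    rw [ik_ord_ikNorm G w' hy0]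
    have hnn : ∀ σ : G, 0 ≤ ((σ : F ≃ₐ[K] F)⁻¹ • w').ord y := by
      intro σ
      by_cases h : (σ : F ≃ₐ[K] F)⁻¹ • w' = w'
      · rw [h]; exact hy1.le
      · refine (hy2 _ ?_).ge
        rw [hT, Finset.mem_union]
        right
        rw [Finset.mem_erase]
        refine ⟨h, ?_⟩
        rw [Finset.mem_image]
        exact ⟨σ⁻¹, Finset.mem_univ _, rfl⟩
    have h3 : ((((1 : G) : F ≃ₐ[K] F))⁻¹ • w').ord y ≤
        ∑ σ : G, ((σ : F ≃ₐ[K] F)⁻¹ • w').ord y :=
      Finset.single_le_sum (f := fun σ : G => ((σ : F ≃ₐ[K] F)⁻¹ • w').ord y)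
        (fun σ _ => hnn σ) (Finset.mem_univ (1 : G))
    have h4 : ((((1 : G) : F ≃ₐ[K] F))⁻¹ • w').ord y = w'.ord y := by
      rw [Subgroup.coe_one, inv_one, one_smul]
    omega
  have e1 := hm w hw
  have e2 := hm w' hw'
  rw [h1] at e1
  have hm0 : m = 0 := by
    rcases mul_eq_zero.mp e1.symm with h | h
    · exact h
    · omega
  rw [hm0, zero_mul] at e2
  omega

/-- Artin: `[F : K(x)] = |G|`. -/
theorem ik_finrank_eq_card {x : F} (hGx : ∀ σ ∈ G, σ x = x)
    (hfix : ∀ y : F, (∀ σ ∈ G, σ y = y) → y ∈ K⟮x⟯) :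
    Module.finrank K⟮x⟯ F = Fintype.card G := by
  have h1 : K⟮x⟯ = IntermediateField.fixedField G := by
    apply le_antisymm
    · rw [IntermediateField.adjoin_simple_le_iff, IntermediateField.mem_fixedField_iff]
      exact hGx
    · intro y hy
      exact hfix y ((IntermediateField.mem_fixedField_iff G y).mp hy)
  rw [h1]
  exact FixedPoints.finrank_eq_card G F

/-- the number of `σ ∈ G` with `σ • w = τ • w` does not depend on `τ`. -/
theorem ik_card_fibre_eq (w : Place K F) (τ : G) [DecidableEq (Place K F)] :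
    (Finset.univ.filter fun σ : G => (σ : F ≃ₐ[K] F) • w = (τ : F ≃ₐ[K] F) • w).card =
      (Finset.univ.filter fun σ : G => (σ : F ≃ₐ[K] F) • w = w).card := by
  refine Finset.card_bij (fun σ _ => τ⁻¹ * σ) ?_ ?_ ?_
  · intro σ hσ
    rw [Finset.mem_filter] at hσ ⊢
    refine ⟨Finset.mem_univ _, ?_⟩
    rw [Subgroup.coe_mul, mul_smul, hσ.2, Subgroup.coe_inv, inv_smul_smul]
  · intro σ _ σ' _ h
    exact mul_left_cancel h
  · intro σ hσ
    rw [Finset.mem_filter] at hσ
    refine ⟨τ * σ, ?_, by simp⟩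
    rw [Finset.mem_filter]
    refine ⟨Finset.mem_univ _, ?_⟩
    rw [Subgroup.coe_mul, mul_smul, hσ.2]

/-- **the stabiliser of a pole `w` of `x` has `- ord_w x` elements** (`G` finite with fixed field
`K(x)`, `K` algebraically closed). -/
theorem ik_card_stabilizer [IsAlgClosed K] (h : IsRRField K F) {x : F}
    (hGx : ∀ σ ∈ G, σ x = x) (hfix : ∀ y : F, (∀ σ ∈ G, σ y = y) → y ∈ K⟮x⟯)
    {w : Place K F} (hw : w.ord x < 0) [DecidableEq (Place K F)] :
    ((Finset.univ.filter fun σ : G => (σ : F ≃ₐ[K] F) • w = w).card : ℤ) = - w.ord x := by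
  have hx : Transcendental K x :=
    Fermat.Agent.S24Res.transcendental_of_ord_ne_zero w (ne_of_lt hw)
  have hn := ik_finrank_eq_card G hGx hfix
  have hpos : 0 < Module.finrank K⟮x⟯ F := by
    rw [hn]
    exact Fintype.card_pos_iff.mpr ⟨1⟩
  haveI : FiniteDimensional K⟮x⟯ F := Module.finite_of_finrank_pos hpos
  have hdeg := degree_poleDiv_eq_finrank h hx
  rw [degree_eq_sum h, hn] at hdeg
  set S := (poleDiv h x).support with hS
  -- every point of the support is in the orbit of `w`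
  have hmem : ∀ v ∈ S, v.ord x < 0 := by
    intro v hv
    rw [hS, Finsupp.mem_support_iff, poleDiv_apply] at hv
    by_contra hcon
    exact hv (max_eq_right (by omega))
  have horb : ∀ v ∈ S, ∃ τ : G, (τ : F ≃ₐ[K] F) • w = v := fun v hv =>
    ik_transitive G hfix hw (hmem v hv)
  have hval : ∀ v ∈ S, poleDiv h x v = - w.ord x := by
    intro v hv
    obtain ⟨τ, rfl⟩ := horb v hv
    rw [poleDiv_apply, ik_ord_smul_of_fixed G hGx τ w]
    exact max_eq_left (by omega)
  rw [Finset.sum_congr rfl hval, Finset.sum_const, nsmul_eq_mul] at hdeg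
  -- count `G` fibrewise
  have hmaps : ∀ σ ∈ (Finset.univ : Finset G), (σ : F ≃ₐ[K] F) • w ∈ S := by
    intro σ _
    rw [hS, Finsupp.mem_support_iff, poleDiv_apply, ik_ord_smul_of_fixed G hGx σ w]
    rw [max_eq_left (by omega)]
    omega
  have hcount := Finset.card_eq_sum_card_fiberwise (f := fun σ : G => (σ : F ≃ₐ[K] F) • w)
    (s := Finset.univ) (t := S) hmaps
  have hfib : ∀ v ∈ S, (Finset.univ.filter fun σ : G => (σ : F ≃ₐ[K] F) • w = v).card =
      (Finset.univ.filter fun σ : G => (σ : F ≃ₐ[K] F) • w = w).card := by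
    intro v hv
    obtain ⟨τ, rfl⟩ := horb v hv
    exact ik_card_fibre_eq G w τ
  rw [Finset.sum_congr rfl hfib, Finset.sum_const, smul_eq_mul, Finset.card_univ] at hcount
  have hSpos : 0 < S.card := by
    rw [Finset.card_pos]
    exact ⟨(1 : G).1 • w, hmaps 1 (Finset.mem_univ _)⟩
  have hcount' : (Fintype.card G : ℤ) =
      (S.card : ℤ) * ((Finset.univ.filter fun σ : G => (σ : F ≃ₐ[K] F) • w = w).card : ℤ) := by
    exact_mod_cast hcount
  rw [hcount'] at hdeg
  have hS0 : (S.card : ℤ) ≠ 0 := by exact_mod_cast hSpos.ne'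
  exact (mul_left_cancel₀ hS0 hdeg).symm

/-- **`∑_{σ ∈ G} (σ • w) = (x)_∞`** for a pole `w` of `x`. -/
theorem ik_sum_single_eq_poleDiv [IsAlgClosed K] (h : IsRRField K F) {x : F}
    (hGx : ∀ σ ∈ G, σ x = x) (hfix : ∀ y : F, (∀ σ ∈ G, σ y = y) → y ∈ K⟮x⟯)
    {w : Place K F} (hw : w.ord x < 0) :
    ∑ σ : G, (Finsupp.single ((σ : F ≃ₐ[K] F) • w) (1 : ℤ) : Divisor K F) = poleDiv h x := by
  classical
  ext v
  rw [Finsupp.finsetSum_apply, poleDiv_apply]
  simp only [Finsupp.single_apply]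
  rw [Finset.sum_boole]
  by_cases hv : v.ord x < 0
  · obtain ⟨τ, rfl⟩ := ik_transitive G hfix hw hv
    rw [ik_card_fibre_eq G w τ, ik_card_stabilizer G h hGx hfix hw,
      ik_ord_smul_of_fixed G hGx τ w, max_eq_left (by omega)]
  · rw [max_eq_right (by omega)]
    have : (Finset.univ.filter fun σ : G => (σ : F ≃ₐ[K] F) • w = v) = ∅ := by
      rw [Finset.filter_eq_empty_iff]
      intro σ _ hσ
      apply hv
      rw [← hσ, ik_ord_smul_of_fixed G hGx σ w]
      exact hw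
    rw [this]
    simp

end Fermat.Agent.S36Cover
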