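import Mathlib
import Fermat.Agent.S36.Cover.InvOrbit

set_option autoImplicit false
set_option linter.unusedSectionVars false
set_option linter.style.haveILetI false

/-!
# Cluster G (S36), seat G-INV: invariant classes over a quotient of genus `0`

`F / K` a function field (`IsRRField`, `K` algebraically closed, any characteristic),
`G` a finite subgroup of `Aut_K(F)` whose fixed field is the rational function field `K(t)`.

* `ik_sum_smul_eq`      : `∑_{σ ∈ G} σ • D = deg D • (t)_∞ + div f` for every divisor `D`;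
* `ik_sum_smul_principal` : `∑_{σ ∈ G} σ • D` is principal if `deg D = 0`;
* `ik_card_smul_eq_zero`  : a `G`-invariant class `y ∈ Pic⁰(F)` is killed by `|G|`.

Application (cluster G): the horizontal components `H_P` (`G = μ_{q+1}`, `t = Z / W`).
-/

noncomputable section

open AlgebraicCurve IntermediateField Polynomial

namespace Fermat.Agent.S36Cover

open Fermat.Agent.RR Fermat.Agent.GoodRedSmall Fermat.Agent.RRHur

variable {K F : Type*} [Field K] [Field F] [Algebra K F]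

theorem ik_divOf_zpow (h : IsRRField K F) (f : F) (n : ℤ) :
    divOf h (f ^ n) = n • divOf h f := by
  ext v
  rw [divOf_apply, Finsupp.smul_apply, divOf_apply, v.ord_zpow, smul_eq_mul]

/-- `((t - c)⁻¹)_∞ = (t)_∞ + div (t - c)`. -/
theorem ik_poleDiv_inv_sub (h : IsRRField K F) (t : F) (c : K) :
    poleDiv h (t - algebraMap K F c)⁻¹ = poleDiv h t + divOf h (t - algebraMap K F c) := by
  ext v
  rw [Finsupp.add_apply, poleDiv_apply, poleDiv_apply, divOf_apply, v.ord_inv, neg_neg]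
  rcases lt_or_ge (v.ord t) 0 with hv | hv
  · rw [fibreDeg_ord_sub_const_of_pole v c hv, max_eq_right (by omega), max_eq_left (by omega)]
    ring
  · have h1 := fibreDeg_ord_sub_const_nonneg v c hv
    rw [max_eq_left h1, max_eq_right (by omega), zero_add]

variable (G : Subgroup (F ≃ₐ[K] F)) [Fintype G]

/-- the orbit sum of a place is `(t)_∞` up to a principal divisor. -/
theorem ik_sum_single_eq [IsAlgClosed K] (h : IsRRField K F) {t : F} (ht : Transcendental K t)
    (hGt : ∀ σ ∈ G, σ t = t) (hfix : ∀ y : F, (∀ σ ∈ G, σ y = y) → y ∈ K⟮t⟯)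
    (w : Place K F) :
    ∃ f : F, f ≠ 0 ∧
      ∑ σ : G, (Finsupp.single ((σ : F ≃ₐ[K] F) • w) (1 : ℤ) : Divisor K F) =
        poleDiv h t + divOf h f := by
  rcases lt_or_ge (w.ord t) 0 with hw | hw
  · exact ⟨1, one_ne_zero, by rw [ik_sum_single_eq_poleDiv G h hGt hfix hw, divOf_one, add_zero]⟩
  · obtain ⟨c, hc⟩ := exists_const_sub h w hw
    have hne : t - algebraMap K F c ≠ 0 := by
      intro h0
      apply ht
      rw [sub_eq_zero.mp h0]
      exact isAlgebraic_algebraMap c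
    have hc' : 0 < w.ord (t - algebraMap K F c) := by
      rcases hc with hc | hc
      · exact absurd (sub_eq_zero.mpr hc) hne
      · exact hc
    set x := (t - algebraMap K F c)⁻¹ with hx
    have hwx : w.ord x < 0 := by
      rw [hx, w.ord_inv]
      omega
    have hGx : ∀ σ ∈ G, σ x = x := by
      intro σ hσ
      rw [hx, map_inv₀, map_sub, hGt σ hσ, AlgEquiv.commutes]
    have hle : K⟮t⟯ ≤ K⟮x⟯ := by
      rw [IntermediateField.adjoin_simple_le_iff]
      have h1 : x ∈ K⟮x⟯ := IntermediateField.mem_adjoin_simple_self K _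
      have h2 : x⁻¹ + algebraMap K F c ∈ K⟮x⟯ :=
        K⟮x⟯.add_mem (K⟮x⟯.inv_mem h1) (K⟮x⟯.algebraMap_mem c)
      rwa [hx, inv_inv, sub_add_cancel] at h2
    have hfix' : ∀ y : F, (∀ σ ∈ G, σ y = y) → y ∈ K⟮x⟯ := fun y hy => hle (hfix y hy)
    refine ⟨t - algebraMap K F c, hne, ?_⟩
    rw [ik_sum_single_eq_poleDiv G h hGx hfix' hwx, hx, ik_poleDiv_inv_sub]

/-- **`∑_{σ ∈ G} σ • D = deg D • (t)_∞ + div f`.** -/
theorem ik_sum_smul_eq [IsAlgClosed K] (h : IsRRField K F) {t : F} (ht : Transcendental K t)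
    (hGt : ∀ σ ∈ G, σ t = t) (hfix : ∀ y : F, (∀ σ ∈ G, σ y = y) → y ∈ K⟮t⟯)
    (D : Divisor K F) :
    ∃ f : F, f ≠ 0 ∧
      ∑ σ : G, (σ : F ≃ₐ[K] F) • D = Divisor.degree D • poleDiv h t + divOf h f := by
  induction D using Finsupp.induction_linear with
  | zero =>
    refine ⟨1, one_ne_zero, ?_⟩
    simp
  | add D₁ D₂ h₁ h₂ =>
    obtain ⟨f₁, hf₁, e₁⟩ := h₁
    obtain ⟨f₂, hf₂, e₂⟩ := h₂
    refine ⟨f₁ * f₂, mul_ne_zero hf₁ hf₂, ?_⟩
    simp only [smul_add, Finset.sum_add_distrib, map_add, add_smul]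
    rw [e₁, e₂, divOf_mul h hf₁ hf₂]
    abel
  | single w n =>
    obtain ⟨f, hf, e⟩ := ik_sum_single_eq G h ht hGt hfix w
    refine ⟨f ^ n, zpow_ne_zero n hf, ?_⟩
    have h1 : ∀ σ : G, (σ : F ≃ₐ[K] F) • (Finsupp.single w n : Divisor K F) =
        n • (Finsupp.single ((σ : F ≃ₐ[K] F) • w) (1 : ℤ) : Divisor K F) := by
      intro σ
      rw [Divisor.smul_single, Finsupp.smul_single, smul_eq_mul, mul_one]
    rw [Finset.sum_congr rfl fun σ _ => h1 σ, ← Finset.smul_sum, e, degree_single_one h,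
      ik_divOf_zpow, smul_add]

/-- **orbit sums of divisors of degree `0` are principal.** -/
theorem ik_sum_smul_principal [IsAlgClosed K] (h : IsRRField K F) {t : F}
    (ht : Transcendental K t) (hGt : ∀ σ ∈ G, σ t = t)
    (hfix : ∀ y : F, (∀ σ ∈ G, σ y = y) → y ∈ K⟮t⟯)
    {D : Divisor K F} (hD : Divisor.degree D = 0) :
    ∑ σ : G, (σ : F ≃ₐ[K] F) • D ∈ Divisor.principal (K := K) (F := F) := by
  obtain ⟨f, hf, e⟩ := ik_sum_smul_eq G h ht hGt hfix D
  rw [e, hD, zero_smul, zero_add]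
  exact ⟨f, hf, fun v => divOf_apply h f v⟩

/-- **a `G`-invariant class of `Pic⁰(F)` is killed by `|G|`**, if `F^G = K(t)`. -/
theorem ik_card_smul_eq_zero [IsAlgClosed K] (h : IsRRField K F) {t : F}
    (ht : Transcendental K t) (hGt : ∀ σ ∈ G, σ t = t)
    (hfix : ∀ y : F, (∀ σ ∈ G, σ y = y) → y ∈ K⟮t⟯)
    (y : Pic0 K F) (hy : ∀ σ ∈ G, σ • y = y) :
    Fintype.card G • y = 0 := by
  obtain ⟨D, rfl⟩ := Pic0.mk_surjective y
  have h1 : Fintype.card G • Pic0.mk D = ∑ σ : G, (σ : F ≃ₐ[K] F) • Pic0.mk D := by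
    rw [Finset.sum_congr rfl fun (σ : G) _ => hy (σ : F ≃ₐ[K] F) σ.2, Finset.sum_const,
      Finset.card_univ]
  have h2 : ∑ σ : G, (σ : F ≃ₐ[K] F) • Pic0.mk D =
      Pic0.mk (∑ σ : G, Pic0.degZeroSMulHom (σ : F ≃ₐ[K] F) D) := by
    rw [show (Pic0.mk : _ → Pic0 K F) = (QuotientAddGroup.mk' _ : _ →+ _) from rfl, map_sum]
    rfl
  rw [h1, h2]
  refine (QuotientAddGroup.eq_zero_iff _).mpr ?_
  rw [AddSubgroup.mem_addSubgroupOf]
  have h3 : ((∑ σ : G, Pic0.degZeroSMulHom (σ : F ≃ₐ[K] F) D :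
      Divisor.degZero (K := K) (F := F)) : Divisor K F) =
      ∑ σ : G, (σ : F ≃ₐ[K] F) • (D : Divisor K F) := by
    rw [AddSubmonoidClass.coe_finsetSum]
    rfl
  rw [h3]
  exact ik_sum_smul_principal G h ht hGt hfix D.2

end Fermat.Agent.S36Cover
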