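import Mathlib
import Fermat.Agent.S36.Cover.InvKill

set_option autoImplicit false
set_option linter.unusedSectionVars false
set_option linter.style.haveILetI false

/-!
# Cluster G (S36), Step 2 in FUNCTION form (abstract part)

`F / K` a function field (`IsRRField`, `K` algebraically closed, any characteristic),
`G` a finite subgroup of `Aut_K(F)` whose fixed field is the rational function field `K(t)`.

* `ik_ord_aeval_at`  : the order of `p(t)` at a zero of `t - a` is `mult_a(p) * ord (t - a)`;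
* `ik_aeval_eq_prod` : `p(t) = lc(p) * ∏_a (t - a) ^ mult_a(p)`;
* `ik_exists_pow_of_mem_adjoin` : an element of `K(t)` all of whose orders at the points `t = a`
  are divisible by `n` is a constant times an `n`-th power (of an element of `K(t)`);
* `ik_ikNorm_eq_pow` : the same for the norm `∏_σ σ f`, the hypothesis being on the FIBRE SUMS
  `∑_{v over t = a} ord_v f`;
* **`ik_pow_card_eq`** : if `σ f = c_σ * u_σ ^ n * f` for all `σ ∈ G` and `n` divides all the fibre
  sums `∑_{v over t = a} ord_v f` (`a ∈ K`; nothing is asked at the poles of `t`), then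
  `f ^ |G| = c * u ^ n`.

Application (cluster G): the horizontal components `H_P` (`G = μ_{q+1}`, `t = Z / W`).
-/

noncomputable section

open AlgebraicCurve IntermediateField Polynomial

namespace Fermat.Agent.S36Cover

open Fermat.Agent.RR Fermat.Agent.GoodRedSmall Fermat.Agent.RRHur

variable {K F : Type*} [Field K] [Field F] [Algebra K F]

/-- the order of `p(t)` at a zero of `t - a`. -/
theorem ik_ord_aeval_at (w : Place K F) {t : F} (a : K)
    (hw : 0 < w.ord (t - algebraMap K F a)) {p : K[X]} (hp : p ≠ 0) :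
    aeval t p ≠ 0 ∧
      w.ord (aeval t p) = (p.rootMultiplicity a : ℤ) * w.ord (t - algebraMap K F a) := by
  have hcomp : aeval (t - algebraMap K F a) (p.comp (X + C a)) = aeval t p := by
    rw [aeval_comp]
    simp
  have hp' : p.comp (X + C a) ≠ 0 := by
    rwa [Ne, comp_X_add_C_eq_zero_iff]
  have h1 := ik_ord_aeval w hw hp'
  rw [hcomp, ← rootMultiplicity_eq_rootMultiplicity] at h1
  exact h1

/-- `p(t) = lc(p) * ∏_a (t - a) ^ mult_a(p)` over an algebraically closed field. -/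
theorem ik_aeval_eq_prod [IsAlgClosed K] [DecidableEq K] (t : F) (p : K[X]) :
    aeval t p = algebraMap K F p.leadingCoeff *
      ∏ a ∈ p.roots.toFinset, (t - algebraMap K F a) ^ (p.rootMultiplicity a) := by
  have h1 := (IsAlgClosed.splits p).eq_prod_roots
  conv_lhs => rw [h1, prod_multiset_root_eq_finset_root]
  simp [map_mul, map_prod]

/-- the same product over any finite set containing the roots. -/
theorem ik_aeval_eq_prod_of_subset [IsAlgClosed K] [DecidableEq K] (t : F) {p : K[X]}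
    {S : Finset K} (hS : p.roots.toFinset ⊆ S) :
    aeval t p = algebraMap K F p.leadingCoeff *
      ∏ a ∈ S, (t - algebraMap K F a) ^ (p.rootMultiplicity a) := by
  rw [ik_aeval_eq_prod t p]
  congr 1
  refine Finset.prod_subset hS fun a _ ha => ?_
  have h0 : p.rootMultiplicity a = 0 := by
    rw [← count_roots]
    exact Multiset.count_eq_zero_of_notMem fun hmem => ha (Multiset.mem_toFinset.mpr hmem)
  rw [h0, pow_zero]

/-- **an element of `K(t)` whose orders at all the points `t = a` are divisible by `n` is a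
constant times an `n`-th power.** -/
theorem ik_exists_pow_of_mem_adjoin [IsAlgClosed K] {t : F} (ht : Transcendental K t) (n : ℕ)
    {u : F} (hu : u ∈ K⟮t⟯) (hu0 : u ≠ 0)
    (hdiv : ∀ (a : K) (m : ℤ), (∀ w : Place K F, 0 < w.ord (t - algebraMap K F a) →
        w.ord u = m * w.ord (t - algebraMap K F a)) → (n : ℤ) ∣ m) :
    ∃ (c : K) (y : F), c ≠ 0 ∧ y ≠ 0 ∧ y ∈ K⟮t⟯ ∧ u = algebraMap K F c * y ^ n := by
  classical
  obtain ⟨r, s, rfl⟩ := (IntermediateField.mem_adjoin_simple_iff K u).mp hu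
  have hr : aeval t r ≠ 0 := fun h => hu0 (by rw [h, zero_div])
  have hs : aeval t s ≠ 0 := fun h => hu0 (by rw [h, div_zero])
  have hr0 : r ≠ 0 := fun h => hr (by rw [h, map_zero])
  have hs0 : s ≠ 0 := fun h => hs (by rw [h, map_zero])
  set D : K → ℤ := fun a => (r.rootMultiplicity a : ℤ) - (s.rootMultiplicity a : ℤ) with hD
  have hDn : ∀ a, (n : ℤ) ∣ D a := fun a => hdiv a (D a) fun w hw => by
    rw [div_eq_mul_inv, w.ord_mul hr (inv_ne_zero hs), w.ord_inv,
      (ik_ord_aeval_at w a hw hr0).2, (ik_ord_aeval_at w a hw hs0).2, hD]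
    ring
  have hne : ∀ a : K, t - algebraMap K F a ≠ 0 := by
    intro a h0
    apply ht
    rw [sub_eq_zero.mp h0]
    exact isAlgebraic_algebraMap a
  have hmem : ∀ a : K, t - algebraMap K F a ∈ K⟮t⟯ := fun a =>
    K⟮t⟯.sub_mem (IntermediateField.mem_adjoin_simple_self K t) (K⟮t⟯.algebraMap_mem a)
  set S : Finset K := r.roots.toFinset ∪ s.roots.toFinset with hS
  have er := ik_aeval_eq_prod_of_subset t (p := r) (S := S) Finset.subset_union_left
  have es := ik_aeval_eq_prod_of_subset t (p := s) (S := S) Finset.subset_union_right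
  have hlr : r.leadingCoeff ≠ 0 := leadingCoeff_ne_zero.mpr hr0
  have hls : s.leadingCoeff ≠ 0 := leadingCoeff_ne_zero.mpr hs0
  refine ⟨r.leadingCoeff / s.leadingCoeff, ∏ a ∈ S, (t - algebraMap K F a) ^ (D a / (n : ℤ)),
    div_ne_zero hlr hls, ?_, ?_, ?_⟩
  · exact Finset.prod_ne_zero_iff.mpr fun a _ => zpow_ne_zero _ (hne a)
  · exact prod_mem fun a _ => zpow_mem (hmem a) _
  · have h1 : (∏ a ∈ S, (t - algebraMap K F a) ^ (D a / (n : ℤ))) ^ n =
        ∏ a ∈ S, (t - algebraMap K F a) ^ (D a) := by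
      rw [← Finset.prod_pow]
      refine Finset.prod_congr rfl fun a _ => ?_
      rw [← zpow_natCast, ← zpow_mul, Int.ediv_mul_cancel (hDn a)]
    have h2 : ∏ a ∈ S, (t - algebraMap K F a) ^ (D a) =
        (∏ a ∈ S, (t - algebraMap K F a) ^ (r.rootMultiplicity a)) /
          ∏ a ∈ S, (t - algebraMap K F a) ^ (s.rootMultiplicity a) := by
      rw [← Finset.prod_div_distrib]
      refine Finset.prod_congr rfl fun a _ => ?_
      rw [hD, zpow_sub₀ (hne a), zpow_natCast, zpow_natCast]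
    rw [h1, h2, er, es, map_div₀]
    have h3 : algebraMap K F s.leadingCoeff ≠ 0 :=
      (map_ne_zero_iff _ (algebraMap K F).injective).mpr hls
    have h4 : ∏ a ∈ S, (t - algebraMap K F a) ^ (s.rootMultiplicity a) ≠ 0 :=
      Finset.prod_ne_zero_iff.mpr fun a _ => pow_ne_zero _ (hne a)
    field_simp

variable (G : Subgroup (F ≃ₐ[K] F)) [Fintype G]

/-- the order of the norm at a zero `w` of `t - a`: `ord_w (t - a)` times the fibre sum. -/
theorem ik_ord_ikNorm_fibre [IsAlgClosed K] (h : IsRRField K F) {t : F}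
    (ht : Transcendental K t) (hGt : ∀ σ ∈ G, σ t = t)
    (hfix : ∀ y : F, (∀ σ ∈ G, σ y = y) → y ∈ K⟮t⟯) {f : F} (hf : f ≠ 0) (a : K)
    {T : Finset (Place K F)} (hT : ∀ v, v ∈ T ↔ 0 < v.ord (t - algebraMap K F a))
    {w : Place K F} (hw : 0 < w.ord (t - algebraMap K F a)) :
    w.ord (ikNorm G f) = (∑ v ∈ T, v.ord f) * w.ord (t - algebraMap K F a) := by
  classical
  have hne : t - algebraMap K F a ≠ 0 := by
    intro h0
    apply ht
    rw [sub_eq_zero.mp h0]
    exact isAlgebraic_algebraMap a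
  set x := (t - algebraMap K F a)⁻¹ with hx
  have hordx : ∀ v : Place K F, v.ord x = - v.ord (t - algebraMap K F a) := fun v => by
    rw [hx, v.ord_inv]
  have hwx : w.ord x < 0 := by
    rw [hordx]
    omega
  have hGx : ∀ σ ∈ G, σ x = x := by
    intro σ hσ
    rw [hx, map_inv₀, map_sub, hGt σ hσ, AlgEquiv.commutes]
  have hle : K⟮t⟯ ≤ K⟮x⟯ := by
    rw [IntermediateField.adjoin_simple_le_iff]
    have h1 : x ∈ K⟮x⟯ := IntermediateField.mem_adjoin_simple_self K _
    have h2 : x⁻¹ + algebraMap K F a ∈ K⟮x⟯ :=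
      K⟮x⟯.add_mem (K⟮x⟯.inv_mem h1) (K⟮x⟯.algebraMap_mem a)
    rwa [hx, inv_inv, sub_add_cancel] at h2
  have hfix' : ∀ y : F, (∀ σ ∈ G, σ y = y) → y ∈ K⟮x⟯ := fun y hy => hle (hfix y hy)
  -- the orbit map `σ ↦ σ⁻¹ • w` lands in `T`, with fibres of size `ord_w (t - a)`
  have hmaps : ∀ σ ∈ (Finset.univ : Finset G), ((σ : F ≃ₐ[K] F)⁻¹ • w) ∈ T := by
    intro σ _
    rw [hT]
    have h1 := ik_ord_smul_of_fixed G hGx σ⁻¹ w
    rw [hordx, hordx] at h1
    have h2 : ((σ⁻¹ : G) : F ≃ₐ[K] F) = (σ : F ≃ₐ[K] F)⁻¹ := rfl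
    rw [h2] at h1
    omega
  have hfib : ∀ v ∈ T, ((Finset.univ.filter fun σ : G => (σ : F ≃ₐ[K] F)⁻¹ • w = v).card : ℤ) =
      w.ord (t - algebraMap K F a) := by
    intro v hv
    have hvx : v.ord x < 0 := by
      rw [hordx]
      have := (hT v).mp hv
      omega
    obtain ⟨τ, rfl⟩ := ik_transitive G hfix' hwx hvx
    have h1 : (Finset.univ.filter fun σ : G => (σ : F ≃ₐ[K] F)⁻¹ • w = (τ : F ≃ₐ[K] F) • w).card =
        (Finset.univ.filter fun σ : G => (σ : F ≃ₐ[K] F) • w = (τ : F ≃ₐ[K] F) • w).card := by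
      refine Finset.card_bij (fun σ _ => σ⁻¹) ?_ ?_ ?_
      · intro σ hσ
        rw [Finset.mem_filter] at hσ ⊢
        exact ⟨Finset.mem_univ _, hσ.2⟩
      · intro σ _ σ' _ hσσ
        exact inv_injective hσσ
      · intro σ hσ
        rw [Finset.mem_filter] at hσ
        refine ⟨σ⁻¹, ?_, inv_inv σ⟩
        rw [Finset.mem_filter]
        refine ⟨Finset.mem_univ _, ?_⟩
        have h2 : (((σ⁻¹ : G) : F ≃ₐ[K] F))⁻¹ = (σ : F ≃ₐ[K] F) := by
          show ((σ : F ≃ₐ[K] F)⁻¹)⁻¹ = _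
          exact inv_inv _
        rw [h2]
        exact hσ.2
    rw [h1, ik_card_fibre_eq G w τ, ik_card_stabilizer G h hGx hfix' hwx, hordx]
    ring
  rw [ik_ord_ikNorm G w hf]
  rw [← Finset.sum_fiberwise_of_maps_to (g := fun σ : G => (σ : F ≃ₐ[K] F)⁻¹ • w)
    (s := Finset.univ) (t := T) hmaps (f := fun σ : G => ((σ : F ≃ₐ[K] F)⁻¹ • w).ord f)]
  rw [Finset.sum_mul]
  refine Finset.sum_congr rfl fun v hv => ?_
  rw [Finset.sum_congr rfl (fun σ hσ => by rw [(Finset.mem_filter.mp hσ).2] :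
    ∀ σ ∈ Finset.univ.filter (fun σ : G => (σ : F ≃ₐ[K] F)⁻¹ • w = v),
      ((σ : F ≃ₐ[K] F)⁻¹ • w).ord f = v.ord f)]
  rw [Finset.sum_const, nsmul_eq_mul, hfib v hv]
  ring

/-- **the norm is a constant times an `n`-th power**, if `n` divides all the fibre sums. -/
theorem ik_ikNorm_eq_pow [IsAlgClosed K] (h : IsRRField K F) {t : F}
    (ht : Transcendental K t) (hGt : ∀ σ ∈ G, σ t = t)
    (hfix : ∀ y : F, (∀ σ ∈ G, σ y = y) → y ∈ K⟮t⟯) (n : ℕ) {f : F} (hf : f ≠ 0)
    (hsum : ∀ (a : K) (T : Finset (Place K F)),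
      (∀ v, v ∈ T ↔ 0 < v.ord (t - algebraMap K F a)) → (n : ℤ) ∣ ∑ v ∈ T, v.ord f) :
    ∃ (c : K) (y : F), c ≠ 0 ∧ y ≠ 0 ∧ y ∈ K⟮t⟯ ∧ ikNorm G f = algebraMap K F c * y ^ n := by
  classical
  refine ik_exists_pow_of_mem_adjoin ht n (ik_ikNorm_mem G hfix f) (ikNorm_ne_zero G hf)
    fun a m hm => ?_
  have hne : t - algebraMap K F a ≠ 0 := by
    intro h0
    apply ht
    rw [sub_eq_zero.mp h0]
    exact isAlgebraic_algebraMap a
  -- the fibre over `t = a` as a finset
  have hx : Transcendental K (t - algebraMap K F a)⁻¹ := by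
    intro halg
    apply ht
    have h1 : IsAlgebraic K (t - algebraMap K F a) := by
      have := halg.inv
      rwa [inv_inv] at this
    have h2 := h1.add (isAlgebraic_algebraMap (A := F) a)
    rwa [sub_add_cancel] at h2
  set T : Finset (Place K F) := (poleDiv h (t - algebraMap K F a)⁻¹).support with hTdef
  have hT : ∀ v, v ∈ T ↔ 0 < v.ord (t - algebraMap K F a) := by
    intro v
    rw [hTdef, Finsupp.mem_support_iff, poleDiv_apply, v.ord_inv, neg_neg]
    constructor
    · intro hv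
      by_contra hcon
      exact hv (max_eq_right (by omega))
    · intro hv
      rw [max_eq_left hv.le]
      omega
  obtain ⟨w, hw⟩ := exists_pole h hx
  have hw' : 0 < w.ord (t - algebraMap K F a) := by
    have h1 : w.ord (t - algebraMap K F a)⁻¹ < 0 :=
      (Fermat.Agent.RRHur.one_lt_adicValuation_iff w).mp hw
    rw [w.ord_inv] at h1
    omega
  have h1 := ik_ord_ikNorm_fibre G h ht hGt hfix hf a hT hw'
  rw [hm w hw'] at h1
  have h2 : m = ∑ v ∈ T, v.ord f := mul_right_cancel₀ (ne_of_gt hw') h1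
  rw [h2]
  exact hsum a T hT

/-- **Step 2, function form.**  `G` finite with fixed field `K(t)`; if `σ f / f` is a constant
times an `n`-th power for all `σ ∈ G` and `n` divides the fibre sums `∑_{v over t = a} ord_v f`
for all `a ∈ K`, then `f ^ |G|` is a constant times an `n`-th power. -/
theorem ik_pow_card_eq [IsAlgClosed K] (h : IsRRField K F) {t : F}
    (ht : Transcendental K t) (hGt : ∀ σ ∈ G, σ t = t)
    (hfix : ∀ y : F, (∀ σ ∈ G, σ y = y) → y ∈ K⟮t⟯) (n : ℕ) {f : F} (hf : f ≠ 0)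
    (hinv : ∀ σ ∈ G, ∃ (c : K) (u : F), σ f = algebraMap K F c * u ^ n * f)
    (hsum : ∀ (a : K) (T : Finset (Place K F)),
      (∀ v, v ∈ T ↔ 0 < v.ord (t - algebraMap K F a)) → (n : ℤ) ∣ ∑ v ∈ T, v.ord f) :
    ∃ (c : K) (u : F), c ≠ 0 ∧ u ≠ 0 ∧ f ^ Fintype.card G = algebraMap K F c * u ^ n := by
  classical
  obtain ⟨c₀, y₀, hc₀, hy₀, -, hN⟩ := ik_ikNorm_eq_pow G h ht hGt hfix n hf hsum
  choose! c u hcu using hinv
  have h1 : ikNorm G f =
      algebraMap K F (∏ σ : G, c σ) * (∏ σ : G, u σ) ^ n * f ^ Fintype.card G := by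
    unfold ikNorm
    rw [Finset.prod_congr rfl (fun (σ : G) _ => hcu σ σ.2), Finset.prod_mul_distrib,
      Finset.prod_mul_distrib, Finset.prod_pow, Finset.prod_const, Finset.card_univ, map_prod]
  have hne : algebraMap K F (∏ σ : G, c σ) * (∏ σ : G, u σ) ^ n ≠ 0 := by
    intro h0
    apply ikNorm_ne_zero G hf
    rw [h1, h0, zero_mul]
  have hc : (∏ σ : G, c σ) ≠ 0 := by
    intro h0
    apply hne
    rw [h0, map_zero, zero_mul]
  have hu : (∏ σ : G, u σ) ^ n ≠ 0 := by
    intro h0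
    apply hne
    rw [h0, mul_zero]
  have hcF : algebraMap K F (∏ σ : G, c σ) ≠ 0 :=
    (map_ne_zero_iff _ (algebraMap K F).injective).mpr hc
  have h2 : f ^ Fintype.card G =
      ikNorm G f / (algebraMap K F (∏ σ : G, c σ) * (∏ σ : G, u σ) ^ n) := by
    rw [h1]
    field_simp
  rcases Nat.eq_zero_or_pos n with hn | hn
  · subst hn
    refine ⟨c₀ / ∏ σ : G, c σ, 1, div_ne_zero hc₀ hc, one_ne_zero, ?_⟩
    rw [h2, hN, map_div₀]
    simp
  · have hu' : (∏ σ : G, u σ) ≠ 0 := by
      intro h0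
      apply hu
      rw [h0, zero_pow hn.ne']
    refine ⟨c₀ / ∏ σ : G, c σ, y₀ / ∏ σ : G, u σ, div_ne_zero hc₀ hc, div_ne_zero hy₀ hu', ?_⟩
    rw [h2, hN, map_div₀, div_pow]
    field_simp

end Fermat.Agent.S36Cover
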